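/-
S37 / P-G2 (helper18), part 2 (generic, Mathlib + the landed `H85/GramUnit.lean`):
integrality from an orthonormal basis.

Let `F/E` be a finite extension of fields, `O` a valuation subring of `F` which is not trivial
on `E`, and `θ` an orthonormal family of `[F : E]` elements
(`∑ rᵢ θᵢ ∈ O ↔ ∀ i, rᵢ ∈ O` for `rᵢ ∈ E`).  Then every `g ∈ O` is a root of a monic polynomial
over `E` all of whose coefficients lie in `O` (the characteristic polynomial of multiplication
by `g` in the basis `θ`).

`isIntegral_of_monic_of_range`: transport of such an equation to a subring `R → F` whose image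
contains the coefficients; `norm_mem_of_isIntegral`: the norm of an integral element lies in the
valuation ring.
-/
import Mathlib
import Fermat.Agent.S18.H85.GramUnit

set_option autoImplicit false

noncomputable section

namespace Fermat.Agent.S37.H18

open Module Polynomial

section Orth

variable {E F : Type*} [Field E] [Field F] [Algebra E F]

/-- **Integrality from an orthonormal basis**: every `g ∈ O` is a root of a monic polynomial over
`E` with coefficients in `O ∩ E`. -/
theorem exists_monic_of_orth [FiniteDimensional E F] (O : ValuationSubring F)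
    (θ : Fin (Module.finrank E F) → F)
    (hnt : ∃ e : E, algebraMap E F e ∉ O)
    (horth : ∀ r : Fin (Module.finrank E F) → E,
      (∑ i, algebraMap E F (r i) * θ i) ∈ O ↔ ∀ i, algebraMap E F (r i) ∈ O)
    (g : F) (hg : g ∈ O) :
    ∃ P : E[X], P.Monic ∧ (∀ i, algebraMap E F (P.coeff i) ∈ O) ∧ aeval g P = 0 := by
  classical
  have hli : LinearIndependent E θ :=
    Fermat.Agent.S18.H85.linearIndependent_of_orth O θ hnt horth
  have hθ : ∀ i, θ i ∈ O := Fermat.Agent.S18.H85.mem_of_orth O θ horth
  by_cases hn : Module.finrank E F = 0
  · exact absurd hn (Module.finrank_pos (R := E) (M := F)).ne'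
  have hne : Nonempty (Fin (Module.finrank E F)) := ⟨⟨0, Nat.pos_of_ne_zero hn⟩⟩
  let b : Basis (Fin (Module.finrank E F)) E F :=
    basisOfLinearIndependentOfCardEqFinrank hli (Fintype.card_fin _)
  have hb : ∀ i, b i = θ i := fun i => by
    rw [coe_basisOfLinearIndependentOfCardEqFinrank]
  set M : Matrix (Fin (Module.finrank E F)) (Fin (Module.finrank E F)) E :=
    Algebra.leftMulMatrix b g with hM
  -- the entries are integral
  have hent : ∀ i j, algebraMap E F (M i j) ∈ O := by
    intro i j
    refine (horth fun i => M i j).mp ?_ i
    have h1 : (∑ i, algebraMap E F (M i j) * θ i) = g * θ j := by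
      have h2 := b.sum_repr (g * b j)
      rw [← hb j, ← h2]
      refine Finset.sum_congr rfl fun i _ => ?_
      rw [hM, Algebra.leftMulMatrix_eq_repr_mul, Algebra.smul_def, hb i]
    rw [h1]
    exact O.mul_mem _ _ hg (hθ j)
  -- descend the matrix to the subring `O ∩ E`
  let R₀ : Subring E := O.toSubring.comap (algebraMap E F)
  let M₀ : Matrix (Fin (Module.finrank E F)) (Fin (Module.finrank E F)) R₀ :=
    fun i j => ⟨M i j, hent i j⟩
  have hMM₀ : M = M₀.map R₀.subtype := by
    ext i j
    rfl
  refine ⟨M.charpoly, Matrix.charpoly_monic M, fun i => ?_, ?_⟩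
  · rw [hMM₀, Matrix.charpoly_map, Polynomial.coeff_map]
    exact (M₀.charpoly.coeff i).2
  · apply Algebra.leftMulMatrix_injective b
    rw [map_zero, ← Polynomial.aeval_algHom_apply]
    exact Matrix.aeval_self_charpoly M

end Orth

section Transport

variable {R E F : Type*} [CommRing R] [Field E] [Field F] [Algebra E F] [Algebra R F]

/-- A root of a monic polynomial over `E` whose coefficients lie in the image of `R` is integral
over `R`. -/
theorem isIntegral_of_monic_of_range (g : F) (P : E[X]) (hP : P.Monic)
    (hcoeff : ∀ i, algebraMap E F (P.coeff i) ∈ Set.range (algebraMap R F))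
    (h0 : aeval g P = 0) : IsIntegral R g := by
  have hl : P.map (algebraMap E F) ∈ Polynomial.lifts (algebraMap R F) := by
    rw [Polynomial.lifts_iff_coeff_lifts]
    intro n
    rw [Polynomial.coeff_map]
    exact hcoeff n
  obtain ⟨Q, hQ, -, hQm⟩ :=
    Polynomial.lifts_and_degree_eq_and_monic hl (hP.map (algebraMap E F))
  refine ⟨Q, hQm, ?_⟩
  rw [← Polynomial.eval_map, hQ, Polynomial.eval_map, ← Polynomial.aeval_def]
  exact h0

end Transport

section Norm

variable {K L : Type*} [Field K] [Field L] [Algebra K L] (O : ValuationSubring K)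

/-- The norm of an element which is integral over a valuation ring of the base field lies in
the valuation ring. -/
theorem norm_mem_of_isIntegral [Algebra O L] [IsScalarTower O K L] {g : L}
    (hg : IsIntegral O g) : Algebra.norm K g ∈ O := by
  have h1 : IsIntegral O (Algebra.norm K g) := Algebra.isIntegral_norm K hg
  obtain ⟨y, hy⟩ := (IsIntegrallyClosed.isIntegral_iff (R := O) (K := K)).mp h1
  rw [← hy]
  exact y.2

end Norm

end Fermat.Agent.S37.H18
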