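/-
S37 / P-G2 (helper18), part 1: compatibility of the degeneracy map `V = heckeBetaBar`
(`q ↦ q^p`) with the Gauss valuation rings of helper66.

For a valuation subring `A` of `ℚ̄` over `ℓ`, levels `N` and `N p` prime to `ℓ`,
`O_M := H66.gaussO A M hA _` and `V := heckeBetaBar ℚ̄ N p : F_N → F_{N p}`:
* `beta_mem_gaussO_iff`          (V1) : `f ∈ O_N ↔ V f ∈ O_{N p}`;
* `beta_mem_nonunits_gaussO_iff` (V2) : `f ∈ 𝔪(O_N) ↔ V f ∈ 𝔪(O_{N p})`.

Generic part (`mem_iff_of_map`, `mem_nonunits_iff_of_map`): a ring homomorphism of fields which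
maps a valuation ring into a valuation ring and nonunits to nonunits reflects both.
-/
import Mathlib
import Fermat.Agent.S18.H66.GaussRing
import Fermat.Prelude.Def_ModularCurve_HeckeOperator
import Fermat.Prelude.Thm_ModularCurve_coeffMap_qExpand

set_option autoImplicit false

noncomputable section

namespace Fermat.Agent.S37.H18

open ModularCurve HahnSeries

section Generic

variable {F F' : Type*} [Field F] [Field F'] (V : F →+* F') (O : ValuationSubring F)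
  (O' : ValuationSubring F')

/-- A homomorphism of fields mapping `O` into `O'` and `𝔪(O)` into `𝔪(O')` reflects
integrality. -/
theorem mem_iff_of_map (h1 : ∀ f ∈ O, V f ∈ O') (h2 : ∀ f ∈ O.nonunits, V f ∈ O'.nonunits)
    (f : F) : f ∈ O ↔ V f ∈ O' := by
  refine ⟨h1 f, fun h => ?_⟩
  by_contra hf
  have hinv : f⁻¹ ∈ O.nonunits := by
    rw [ValuationSubring.mem_nonunits_iff_or]
    right
    rwa [inv_inv]
  have h3 := h2 _ hinv
  rw [map_inv₀, ValuationSubring.mem_nonunits_iff_or, inv_inv] at h3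
  rcases h3 with h3 | h3
  · rw [inv_eq_zero, map_eq_zero] at h3
    exact hf (h3 ▸ O.zero_mem)
  · exact h3 h

/-- A homomorphism of fields mapping `O` into `O'` and `𝔪(O)` into `𝔪(O')` reflects the
maximal ideal. -/
theorem mem_nonunits_iff_of_map (h1 : ∀ f ∈ O, V f ∈ O')
    (h2 : ∀ f ∈ O.nonunits, V f ∈ O'.nonunits) (f : F) :
    f ∈ O.nonunits ↔ V f ∈ O'.nonunits := by
  refine ⟨h2 f, fun h => ?_⟩
  rw [ValuationSubring.mem_nonunits_iff_or] at h ⊢
  rcases h with h | h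
  · left
    exact (map_eq_zero V).mp h
  · right
    intro hf
    apply h
    rw [← map_inv₀]
    exact h1 _ hf

end Generic

section Modular

variable (A : ValuationSubring (AlgebraicClosure ℚ)) {ℓ : ℕ} [Fact ℓ.Prime]
  (N p : ℕ) [NeZero N] [NeZero p]

/-- `V` maps the Gauss ring of level `N` into the Gauss ring of level `N p`. -/
theorem beta_mem_gaussO (hA : A.LiesOverPrime ℓ) (hℓN : ¬ ℓ ∣ N) (hℓNp : ¬ ℓ ∣ N * p)
    (f : ↥(modularFunctionFieldBar N)) (hf : f ∈ Fermat.Agent.S18.H66.gaussO A N hA hℓN) :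
    heckeBetaBar (AlgebraicClosure ℚ) N p f ∈ Fermat.Agent.S18.H66.gaussO A (N * p) hA hℓNp := by
  obtain ⟨y₁, y₂, hy, hyF, hfy⟩ := (Fermat.Agent.S18.H66.mem_gaussO_iff A N hA hℓN f).mp hf
  rw [Fermat.Agent.S18.H66.mem_gaussO_iff]
  refine ⟨qExpand _ p y₁, qExpand _ p y₂, ?_, ?_, ?_⟩
  · rw [coeffMap_qExpand]
    intro h
    rw [← map_zero (qExpand _ p)] at h
    exact hy (qExpand_injective p h)
  · rw [coeffMap_qExpand]
    exact (heckeBetaBar (AlgebraicClosure ℚ) N p ⟨_, hyF⟩).2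
  · rw [coe_heckeBetaBar, coeffMap_qExpand, coeffMap_qExpand, ← map_mul, hfy]

/-- `V` maps the maximal ideal of the Gauss ring of level `N` into that of level `N p`. -/
theorem beta_mem_nonunits_gaussO (hA : A.LiesOverPrime ℓ) (hℓN : ¬ ℓ ∣ N) (hℓNp : ¬ ℓ ∣ N * p)
    (f : ↥(modularFunctionFieldBar N))
    (hf : f ∈ (Fermat.Agent.S18.H66.gaussO A N hA hℓN).nonunits) :
    heckeBetaBar (AlgebraicClosure ℚ) N p f ∈
      (Fermat.Agent.S18.H66.gaussO A (N * p) hA hℓNp).nonunits := by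
  obtain ⟨y₁, y₂, hy₁, hy, hyF, hfy⟩ :=
    (Fermat.Agent.S18.H66.mem_nonunits_gaussO_iff A N hA hℓN f).mp hf
  rw [Fermat.Agent.S18.H66.mem_nonunits_gaussO_iff]
  refine ⟨qExpand _ p y₁, qExpand _ p y₂, ?_, ?_, ?_, ?_⟩
  · rw [coeffMap_qExpand, hy₁, map_zero]
  · rw [coeffMap_qExpand]
    intro h
    rw [← map_zero (qExpand _ p)] at h
    exact hy (qExpand_injective p h)
  · rw [coeffMap_qExpand]
    exact (heckeBetaBar (AlgebraicClosure ℚ) N p ⟨_, hyF⟩).2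
  · rw [coe_heckeBetaBar, coeffMap_qExpand, coeffMap_qExpand, ← map_mul, hfy]

/-- **(V1)** `f ∈ O_N ↔ V f ∈ O_{N p}`. -/
theorem beta_mem_gaussO_iff (hA : A.LiesOverPrime ℓ) (hℓN : ¬ ℓ ∣ N) (hℓNp : ¬ ℓ ∣ N * p)
    (f : ↥(modularFunctionFieldBar N)) :
    f ∈ Fermat.Agent.S18.H66.gaussO A N hA hℓN ↔
      heckeBetaBar (AlgebraicClosure ℚ) N p f ∈
        Fermat.Agent.S18.H66.gaussO A (N * p) hA hℓNp :=
  mem_iff_of_map (heckeBetaBar (AlgebraicClosure ℚ) N p).toRingHom _ _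
    (beta_mem_gaussO A N p hA hℓN hℓNp) (beta_mem_nonunits_gaussO A N p hA hℓN hℓNp) f

/-- **(V2)** `f ∈ 𝔪(O_N) ↔ V f ∈ 𝔪(O_{N p})`. -/
theorem beta_mem_nonunits_gaussO_iff (hA : A.LiesOverPrime ℓ) (hℓN : ¬ ℓ ∣ N)
    (hℓNp : ¬ ℓ ∣ N * p) (f : ↥(modularFunctionFieldBar N)) :
    f ∈ (Fermat.Agent.S18.H66.gaussO A N hA hℓN).nonunits ↔
      heckeBetaBar (AlgebraicClosure ℚ) N p f ∈
        (Fermat.Agent.S18.H66.gaussO A (N * p) hA hℓNp).nonunits :=
  mem_nonunits_iff_of_map (heckeBetaBar (AlgebraicClosure ℚ) N p).toRingHom _ _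
    (beta_mem_gaussO A N p hA hℓN hℓNp) (beta_mem_nonunits_gaussO A N p hA hℓN hℓNp) f

end Modular

end Fermat.Agent.S37.H18
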