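/-
S37 / P-G2 (helper18), part 3: **norm integrality** (V3) for the degeneracy map
`V = heckeBetaBar ℚ̄ N p : F_N → F_{N p}` (`q ↦ q^p`) and the Gauss rings of helper66:

  `g ∈ O_{N p} → N_V(g) ∈ O_N`     (norm of `F_{N p}` over `V(F_N)`).

Route: `F_{N p}` has an orthonormal basis over `(ℚ̄(j(q^{N p})), Gauss)` (landed
`H85.basis_of_degree` at the top function, with the landed top-degree / separability facts of
`H28`), so `g` is a root of a monic polynomial with coefficients in `O_{N p} ∩ ℚ̄(j(q^{N p}))`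
(`exists_monic_of_orth`); `ℚ̄(j(q^{N p})) = V(ℚ̄(j(q^N)))` and (V1) put the coefficients in
`V(O_N)`, so `g` is integral over `O_N`, hence so is its norm, and `O_N` is integrally closed.

Also exported: `exists_orth_top` (the orthonormal basis at the top function, any level prime to
`ℓ`), `isIntegral_beta` (`O_{N p}` is integral over `O_N` along `V`).
-/
import Mathlib
import Fermat.Agent.S37.H18.VGauss
import Fermat.Agent.S37.H18.IntOrth
import Fermat.Agent.S18.H28.TopFacts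
import Fermat.Agent.S18.H28.TopDeg
import Fermat.Agent.S18.H28.Ratio
import Fermat.Agent.S18.H85.BasisDeg
import Fermat.Agent.S18.H66.Leaves

set_option autoImplicit false

noncomputable section

namespace Fermat.Agent.S37.H18

open ModularCurve HahnSeries IntermediateField AlgebraicCurve Fermat.Agent.S18
  Fermat.Agent.S18.H74

section Top

variable (A : ValuationSubring Kb) {ℓ : ℕ} [Fact ℓ.Prime] (M : ℕ) [NeZero M]

/-- The ratio characterisation of helper66's Gauss ring (no clause `Y₂ ∈ F`). -/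
theorem mem_gaussO_iff_ratio (hA : A.LiesOverPrime ℓ) (hℓM : ¬ ℓ ∣ M) (f : FN M) :
    f ∈ H66.gaussO A M hA hℓM ↔ ∃ y₁ y₂ : LaurentSeries A,
      coeffMap (IsLocalRing.residue A) y₂ ≠ 0 ∧
        (f : LaurentSeries Kb) * coeffMap A.subtype y₂ = coeffMap A.subtype y₁ := by
  constructor
  · rintro ⟨y₁, y₂, hy, -, hfy⟩
    exact ⟨y₁, y₂, hy, hfy⟩
  · rintro ⟨y₁, y₂, hy, hfy⟩
    exact H66.isGaussInt_of_ratio (H66.hScale_bar A M hA hℓM) f.2 hy hfy

/-- `ℓ⁻¹ ∉ A`. -/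
theorem inv_prime_not_mem (hA : A.LiesOverPrime ℓ) : ((ℓ : ℕ) : Kb)⁻¹ ∉ A := by
  have h1 : ((ℓ : ℕ) : Kb) ∈ A.nonunits := hA
  rw [ValuationSubring.mem_nonunits_iff_or] at h1
  rcases h1 with h1 | h1
  · exact absurd h1 (Nat.cast_ne_zero.mpr (Fact.out : ℓ.Prime).ne_zero)
  · exact h1

/-- **Orthonormal basis at the top function** `j(q^M)` of `F_M`, for the Gauss ring. -/
theorem exists_orth_top (hA : A.LiesOverPrime ℓ) (hℓM : ¬ ℓ ∣ M) :
    ∃ θ : Fin (Module.finrank Kb⟮H28.jtop M⟯ (FN M)) → FN M,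
      ∀ r : Fin (Module.finrank Kb⟮H28.jtop M⟯ (FN M)) → Kb⟮H28.jtop M⟯,
        (∑ i, (r i : FN M) * θ i) ∈ H66.gaussO A M hA hℓM ↔
          ∀ i, (r i : FN M) ∈ H66.gaussO A M hA hℓM := by
  obtain ⟨θ, hθ, -⟩ := H85.basis_of_degree M hℓM A hA (H66.gaussO A M hA hℓM)
    (mem_gaussO_iff_ratio A M hA hℓM) (H28.jA A M) (H28.jtop M) (H28.incA_jA A M).symm
    (by rw [H28.redA_jA]; exact jqModCd_mem_full (H28.kA A) M dvd_rfl)
    (by rw [H28.redA_jA]; exact H28.transcendental_jqNModC (H28.kA A) M)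
    (H28.finite_top M)
    (by rw [H28.redA_jA]; exact (H28.finrank_top_le M).trans (H28.psi_le_relfinrank_kA M hℓM A hA))
    (by rw [H28.redA_jA]; exact H28.separable_kA M hℓM A hA)
  exact ⟨θ, hθ⟩

/-- Every element of the Gauss ring of `F_M` is a root of a monic polynomial over
`ℚ̄(j(q^M))` with coefficients in the Gauss ring. -/
theorem exists_monic_top (hA : A.LiesOverPrime ℓ) (hℓM : ¬ ℓ ∣ M) (g : FN M)
    (hg : g ∈ H66.gaussO A M hA hℓM) :
    ∃ P : Polynomial Kb⟮H28.jtop M⟯, P.Monic ∧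
      (∀ i, ((P.coeff i : Kb⟮H28.jtop M⟯) : FN M) ∈ H66.gaussO A M hA hℓM) ∧
      Polynomial.aeval g P = 0 := by
  have := H28.finite_top M
  obtain ⟨θ, hθ⟩ := exists_orth_top A M hA hℓM
  refine exists_monic_of_orth (E := Kb⟮H28.jtop M⟯) (F := FN M) (H66.gaussO A M hA hℓM) θ
    ⟨algebraMap Kb Kb⟮H28.jtop M⟯ ((ℓ : ℕ) : Kb)⁻¹, fun h => ?_⟩ hθ g hg
  exact inv_prime_not_mem A hA ((H66.algebraMap_mem_gaussO_iff A M hA hℓM _).mp h)

end Top

section Beta

variable (A : ValuationSubring Kb) {ℓ : ℕ} [Fact ℓ.Prime] (N p : ℕ) [NeZero N] [NeZero p]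

/-- `V(j(q^N)) = j(q^{N p})`. -/
theorem beta_jtop : heckeBetaBar Kb N p (H28.jtop N) = H28.jtop (N * p) := by
  apply Subtype.ext
  rw [coe_heckeBetaBar, H28.coe_jFN, H28.coe_jFN]
  have h1 : qExpand Kb p (coeffEmb Kb (qExpand ℚ N jq)) =
      coeffEmb Kb (qExpand ℚ p (qExpand ℚ N jq)) :=
    (coeffMap_qExpand (algebraMap ℚ Kb) p _).symm
  rw [h1, qExpand_qExpand]
  exact congrArg (coeffEmb Kb) (qExpand_congr (mul_comm p N) jq)

/-- `ℚ̄(j(q^{N p})) ⊆ V(F_N)`. -/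
theorem exists_beta_eq (c : Kb⟮H28.jtop (N * p)⟯) :
    ∃ c' : FN N, heckeBetaBar Kb N p c' = (c : FN (N * p)) := by
  have hle : Kb⟮H28.jtop (N * p)⟯ ≤ (heckeBetaBar Kb N p).fieldRange := by
    rw [IntermediateField.adjoin_le_iff, Set.singleton_subset_iff]
    exact ⟨H28.jtop N, beta_jtop N p⟩
  exact hle c.2

/-- **`O_{N p}` is integral over `O_N` along `V`**, in polynomial form. -/
theorem exists_monic_beta (hA : A.LiesOverPrime ℓ) (hℓN : ¬ ℓ ∣ N) (hℓNp : ¬ ℓ ∣ N * p)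
    (g : FN (N * p)) (hg : g ∈ H66.gaussO A (N * p) hA hℓNp) :
    ∃ Q : Polynomial (H66.gaussO A N hA hℓN), Q.Monic ∧
      Polynomial.eval₂ ((heckeBetaBar Kb N p).toRingHom.comp
        (H66.gaussO A N hA hℓN).subtype) g Q = 0 := by
  obtain ⟨P, hP, hPc, hP0⟩ := exists_monic_top A (N * p) hA hℓNp g hg
  let _ : Algebra (H66.gaussO A N hA hℓN) (FN (N * p)) :=
    ((heckeBetaBar Kb N p).toRingHom.comp (H66.gaussO A N hA hℓN).subtype).toAlgebra
  have h : IsIntegral (H66.gaussO A N hA hℓN) g := by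
    refine isIntegral_of_monic_of_range g P hP (fun i => ?_) hP0
    obtain ⟨c', hc'⟩ := exists_beta_eq N p (P.coeff i)
    have hc'O : c' ∈ H66.gaussO A N hA hℓN := by
      rw [beta_mem_gaussO_iff A N p hA hℓN hℓNp, hc']
      exact hPc i
    exact ⟨⟨c', hc'O⟩, hc'⟩
  obtain ⟨Q, hQ, hQ0⟩ := h
  exact ⟨Q, hQ, hQ0⟩

/-- **(V3) Norm integrality**: the norm along `V` of an element of the Gauss ring of level
`N p` lies in the Gauss ring of level `N`. -/
theorem norm_beta_mem_gaussO (hA : A.LiesOverPrime ℓ) (hℓN : ¬ ℓ ∣ N) (hℓNp : ¬ ℓ ∣ N * p)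
    (g : ↥(modularFunctionFieldBar (N * p)))
    (hg : g ∈ H66.gaussO A (N * p) hA hℓNp) :
    letI := algebraAlong (heckeBetaBar (AlgebraicClosure ℚ) N p)
    Algebra.norm ↥(modularFunctionFieldBar N) g ∈ H66.gaussO A N hA hℓN := by
  let _ := algebraAlong (heckeBetaBar (AlgebraicClosure ℚ) N p)
  let _ : Algebra (H66.gaussO A N hA hℓN) (FN (N * p)) :=
    ((heckeBetaBar Kb N p).toRingHom.comp (H66.gaussO A N hA hℓN).subtype).toAlgebra
  have : IsScalarTower (H66.gaussO A N hA hℓN) (FN N) (FN (N * p)) :=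
    IsScalarTower.of_algebraMap_eq fun _ => rfl
  obtain ⟨Q, hQ, hQ0⟩ := exists_monic_beta A N p hA hℓN hℓNp g hg
  exact norm_mem_of_isIntegral (H66.gaussO A N hA hℓN) ⟨Q, hQ, hQ0⟩

end Beta

end Fermat.Agent.S37.H18
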