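/-
S37 / P-G2 (helper18), part 4: complements to norm integrality (V3) for
`V = heckeBetaBar ℚ̄ N p : F_N → F_{N p}` and the Gauss rings `O_M` of helper66:

* `norm_beta_inv_mem_gaussO`      : the norm of a unit of `O_{N p}` is a unit of `O_N`;
* `norm_beta_mem_nonunits_gaussO` : the norm of an element of `𝔪(O_{N p})` lies in `𝔪(O_N)`.

Inputs: `NormIntegral.lean` (V3), `VGauss.lean` (V2), the value group of `O_{N p}` is that of `A`
(`H66.exists_scale_gaussO`) and finiteness of `V` (`H87.finiteAlong_beta`).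
-/
import Mathlib
import Fermat.Agent.S37.H18.NormIntegral
import Fermat.Agent.S37.H87.HeckeDegree

set_option autoImplicit false

noncomputable section

namespace Fermat.Agent.S37.H18

open ModularCurve HahnSeries IntermediateField AlgebraicCurve Fermat.Agent.S18
  Fermat.Agent.S18.H74

section Beta

variable (A : ValuationSubring Kb) {ℓ : ℕ} [Fact ℓ.Prime] (N p : ℕ) [NeZero N] [NeZero p]

/-- The norm along `V` of a unit of the Gauss ring of level `N p` is a unit of the Gauss ring of
level `N`. -/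
theorem norm_beta_inv_mem_gaussO (hA : A.LiesOverPrime ℓ) (hℓN : ¬ ℓ ∣ N) (hℓNp : ¬ ℓ ∣ N * p)
    (g : ↥(modularFunctionFieldBar (N * p)))
    (hg : g⁻¹ ∈ H66.gaussO A (N * p) hA hℓNp) :
    letI := algebraAlong (heckeBetaBar (AlgebraicClosure ℚ) N p)
    (Algebra.norm ↥(modularFunctionFieldBar N) g)⁻¹ ∈ H66.gaussO A N hA hℓN := by
  let _ := algebraAlong (heckeBetaBar (AlgebraicClosure ℚ) N p)
  by_cases hg0 : g = 0
  · have hfin : Module.Finite (FN N) (FN (N * p)) := Fermat.Agent.S37.H87.finiteAlong_beta N p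
    have hfree : Module.Free (FN N) (FN (N * p)) := Module.Free.of_divisionRing _ _
    rw [hg0, Algebra.norm_zero, inv_zero]
    exact (H66.gaussO A N hA hℓN).zero_mem
  · have h1 : Algebra.norm (FN N) g * Algebra.norm (FN N) g⁻¹ = 1 := by
      rw [← map_mul, mul_inv_cancel₀ hg0, map_one]
    rw [inv_eq_of_mul_eq_one_right h1]
    exact norm_beta_mem_gaussO A N p hA hℓN hℓNp g⁻¹ hg

/-- The norm along `V` of an element of the maximal ideal of the Gauss ring of level `N p` lies
in the maximal ideal of the Gauss ring of level `N`. -/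
theorem norm_beta_mem_nonunits_gaussO (hA : A.LiesOverPrime ℓ) (hℓN : ¬ ℓ ∣ N)
    (hℓNp : ¬ ℓ ∣ N * p) (g : ↥(modularFunctionFieldBar (N * p)))
    (hg : g ∈ (H66.gaussO A (N * p) hA hℓNp).nonunits) :
    letI := algebraAlong (heckeBetaBar (AlgebraicClosure ℚ) N p)
    Algebra.norm ↥(modularFunctionFieldBar N) g ∈ (H66.gaussO A N hA hℓN).nonunits := by
  let _ := algebraAlong (heckeBetaBar (AlgebraicClosure ℚ) N p)
  have hfin : Module.Finite (FN N) (FN (N * p)) := Fermat.Agent.S37.H87.finiteAlong_beta N p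
  have hfree : Module.Free (FN N) (FN (N * p)) := Module.Free.of_divisionRing _ _
  have htower : IsScalarTower Kb (FN N) (FN (N * p)) :=
    isScalarTower_along (heckeBetaBar (AlgebraicClosure ℚ) N p)
  by_cases hg0 : g = 0
  · rw [hg0, Algebra.norm_zero]
    exact (H66.gaussO A N hA hℓN).nonunits.zero_mem
  obtain ⟨c, hc, hu, hu'⟩ := H66.exists_scale_gaussO A (N * p) hA hℓNp g hg0
  -- `c⁻¹ = g · (c g)⁻¹` lies in the maximal ideal
  have hcinv' : algebraMap Kb (FN (N * p)) c⁻¹ ∈ (H66.gaussO A (N * p) hA hℓNp).nonunits := by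
    have h1 : algebraMap Kb (FN (N * p)) c⁻¹ = g * (algebraMap Kb (FN (N * p)) c * g)⁻¹ := by
      have hc' : algebraMap Kb (FN (N * p)) c ≠ 0 := (map_ne_zero _).mpr hc
      rw [map_inv₀]
      field_simp
    rw [h1]
    exact H85.nonunits_mul_mem _ hg hu'
  have hcinv : algebraMap Kb (FN N) c⁻¹ ∈ (H66.gaussO A N hA hℓN).nonunits := by
    rw [beta_mem_nonunits_gaussO_iff A N p hA hℓN hℓNp, AlgHom.commutes]
    exact hcinv'
  -- the norm of the unit `c g`
  have hNu : Algebra.norm (FN N) (algebraMap Kb (FN (N * p)) c * g) ∈ H66.gaussO A N hA hℓN :=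
    norm_beta_mem_gaussO A N p hA hℓN hℓNp _ hu
  have hNc : Algebra.norm (FN N) (algebraMap Kb (FN (N * p)) c) =
      algebraMap Kb (FN N) c ^ Module.finrank (FN N) (FN (N * p)) := by
    rw [IsScalarTower.algebraMap_apply Kb (FN N) (FN (N * p)), Algebra.norm_algebraMap]
  have hn : Module.finrank (FN N) (FN (N * p)) ≠ 0 := (Module.finrank_pos).ne'
  have hcne : algebraMap Kb (FN N) c ≠ 0 := (map_ne_zero _).mpr hc
  have hkey : Algebra.norm (FN N) g =
      algebraMap Kb (FN N) c⁻¹ ^ Module.finrank (FN N) (FN (N * p)) *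
        Algebra.norm (FN N) (algebraMap Kb (FN (N * p)) c * g) := by
    rw [map_mul, hNc, ← mul_assoc, ← mul_pow, map_inv₀, inv_mul_cancel₀ hcne, one_pow, one_mul]
  rw [hkey]
  refine H85.nonunits_mul_mem _ ?_ hNu
  rw [ValuationSubring.mem_nonunits_iff] at hcinv ⊢
  rw [map_pow]
  exact pow_lt_one₀ zero_le hcinv hn

end Beta

end Fermat.Agent.S37.H18
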